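import Mathlib

set_option autoImplicit false

namespace Fermat.Agent.S49

open Module

/-- A commuting family of endomorphisms of a finite dimensional space over an algebraically
closed field has a common eigenvector inside any nonzero stable subspace. -/
theorem exists_common_eigenvector {K V : Type*} [Field K] [IsAlgClosed K] [AddCommGroup V]
    [Module K V] [FiniteDimensional K V]
    (S : Set (Module.End K V)) (hS : ∀ a ∈ S, ∀ b ∈ S, Commute a b) :
    ∀ (n : ℕ) (W : Submodule K V), finrank K W = n → W ≠ ⊥ →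
      (∀ a ∈ S, ∀ w ∈ W, a w ∈ W) →
      ∃ v ∈ W, v ≠ 0 ∧ ∀ a ∈ S, ∃ μ : K, a v = μ • v := by
  intro n
  induction n using Nat.strong_induction_on with
  | _ n ih =>
    intro W hn hW hWS
    by_cases hall : ∀ a ∈ S, ∃ μ : K, ∀ w ∈ W, a w = μ • w
    · obtain ⟨v, hvW, hv0⟩ := Submodule.exists_mem_ne_zero_of_ne_bot hW
      refine ⟨v, hvW, hv0, fun a ha => ?_⟩
      obtain ⟨μ, hμ⟩ := hall a ha
      exact ⟨μ, hμ v hvW⟩
    · push Not at hall
      obtain ⟨a, ha, hne⟩ := hall
      have : Nontrivial W := Submodule.nontrivial_iff_ne_bot.2 hW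
      obtain ⟨μ, hμ⟩ := Module.End.exists_eigenvalue (a.restrict (hWS a ha))
      obtain ⟨w₀, hw₀⟩ := hμ.exists_hasEigenvector
      set W' : Submodule K V := W ⊓ a.eigenspace μ with hW'
      have hw₀mem : (w₀ : V) ∈ W' := by
        refine ⟨w₀.2, ?_⟩
        rw [SetLike.mem_coe, Module.End.mem_eigenspace_iff]
        have := hw₀.apply_eq_smul
        have h2 := congrArg Subtype.val this
        simpa using h2
      have hw₀ne : (w₀ : V) ≠ 0 := by
        intro h0
        exact hw₀.2 (Subtype.ext h0)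
      have hW'ne : W' ≠ ⊥ := by
        intro hbot
        rw [hbot] at hw₀mem
        exact hw₀ne ((Submodule.mem_bot K).1 hw₀mem)
      have hW'lt : W' < W := by
        refine lt_of_le_of_ne inf_le_left ?_
        intro heq
        obtain ⟨w, hwW, hw⟩ := hne μ
        apply hw
        have : w ∈ W' := heq ▸ hwW
        exact Module.End.mem_eigenspace_iff.1 this.2
      have hlt : finrank K W' < n := hn ▸ Submodule.finrank_lt_finrank_of_lt hW'lt
      have hW'S : ∀ b ∈ S, ∀ w ∈ W', b w ∈ W' := by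
        intro b hb w hw
        refine ⟨hWS b hb w hw.1, ?_⟩
        rw [SetLike.mem_coe, Module.End.mem_eigenspace_iff]
        have h1 : a w = μ • w := Module.End.mem_eigenspace_iff.1 hw.2
        have hc : a (b w) = b (a w) := by
          have := hS a ha b hb
          have h3 := congrArg (fun f : Module.End K V => f w) this.eq
          simpa using h3
        rw [hc, h1, map_smul]
      obtain ⟨v, hvW', hv0, hv⟩ := ih _ hlt W' rfl hW'ne hW'S
      exact ⟨v, hvW'.1, hv0, hv⟩


/-- Lifting lemma (abstract form): a commutative ring `T`, finite over `ℤ`, acting faithfully on a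
finite dimensional complex vector space, and a maximal ideal `𝔪` of `T`: there is a common
eigenvector whose eigencharacter takes values in the algebraic integers and sends `𝔪` into a
maximal ideal of the ring of algebraic integers. -/
theorem exists_eigen_lift {V : Type*} [AddCommGroup V] [Module ℂ V] [FiniteDimensional ℂ V]
    {T : Type*} [CommRing T] [Module.Finite ℤ T] (ι : T →+* Module.End ℂ V)
    (hι : Function.Injective ι) (𝔪 : Ideal T) [h𝔪 : 𝔪.IsMaximal] :
    ∃ v : V, v ≠ 0 ∧ ∃ lam : T →+* integralClosure ℤ ℂ,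
      (∀ t, ι t v = ((lam t : integralClosure ℤ ℂ) : ℂ) • v) ∧
      ∃ 𝔪' : Ideal (integralClosure ℤ ℂ), 𝔪'.IsMaximal ∧ ∀ t ∈ 𝔪, lam t ∈ 𝔪' := by
  classical
  have hNoeth : IsNoetherianRing T :=
    isNoetherian_of_tower ℤ (isNoetherian_of_isNoetherianRing_of_finite ℤ T)
  have hInt : Algebra.IsIntegral ℤ T := Algebra.IsIntegral.of_finite ℤ T
  -- a minimal prime below `𝔪`
  obtain ⟨𝔭, h𝔭min, h𝔭le⟩ := Ideal.exists_minimalPrimes_le (bot_le : (⊥ : Ideal T) ≤ 𝔪)
  have hann : Module.annihilator T T = ⊥ := by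
    rw [Module.annihilator_eq_bot]; infer_instance
  have hass : 𝔭 ∈ associatedPrimes T T := by
    apply Module.associatedPrimes.minimalPrimes_annihilator_subset_associatedPrimes T T
    rw [hann]; exact h𝔭min
  obtain ⟨h𝔭prime, x, hx⟩ := (isAssociatedPrime_iff).1 hass
  have hmem : ∀ t : T, t ∈ 𝔭 ↔ t * x = 0 := by
    intro t
    rw [hx, Submodule.mem_colon_singleton, Submodule.mem_bot, smul_eq_mul]
  have hx0 : x ≠ 0 := by
    intro h0
    apply h𝔭prime.ne_top
    rw [Ideal.eq_top_iff_one, hmem, h0, mul_zero]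
  have hιx : ι x ≠ 0 := by
    intro h0
    apply hx0
    apply hι
    rw [h0, map_zero]
  obtain ⟨v₀, hv₀⟩ : ∃ v₀, ι x v₀ ≠ 0 := by
    by_contra hcon
    push Not at hcon
    apply hιx
    ext v
    simpa using hcon v
  -- the subspace killed by `𝔭`
  let W : Submodule ℂ V :=
    { carrier := {v | ∀ t ∈ 𝔭, ι t v = 0}
      add_mem' := by
        intro a b ha hb t ht
        rw [map_add, ha t ht, hb t ht, add_zero]
      zero_mem' := by
        intro t _
        rw [map_zero]
      smul_mem' := by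
        intro c a ha t ht
        rw [map_smul, ha t ht, smul_zero] }
  have hWmem : ∀ v, v ∈ W ↔ ∀ t ∈ 𝔭, ι t v = 0 := fun v => Iff.rfl
  have hW : W ≠ ⊥ := by
    intro hbot
    apply hv₀
    have : ι x v₀ ∈ W := by
      rw [hWmem]
      intro t ht
      have h1 : ι t (ι x v₀) = ι (t * x) v₀ := by
        rw [map_mul]; rfl
      rw [h1, (hmem t).1 ht, map_zero]; rfl
    rw [hbot] at this
    exact (Submodule.mem_bot ℂ).1 this
  have hcomm : ∀ a ∈ Set.range ι, ∀ b ∈ Set.range ι, Commute a b := by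
    rintro _ ⟨s, rfl⟩ _ ⟨t, rfl⟩
    show ι s * ι t = ι t * ι s
    rw [← map_mul, ← map_mul, mul_comm]
  have hWS : ∀ a ∈ Set.range ι, ∀ w ∈ W, a w ∈ W := by
    rintro _ ⟨s, rfl⟩ w hw
    rw [hWmem] at hw ⊢
    intro t ht
    have h1 : ι t (ι s w) = ι s (ι t w) := by
      have := (hcomm (ι t) ⟨t, rfl⟩ (ι s) ⟨s, rfl⟩).eq
      have h3 := congrArg (fun f : Module.End ℂ V => f w) this
      simpa using h3
    rw [h1, hw t ht, map_zero]
  obtain ⟨v, hvW, hv0, hv⟩ :=
    exists_common_eigenvector (Set.range ι) hcomm _ W rfl hW hWS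
  -- the eigencharacter
  have hex : ∀ t : T, ∃ μ : ℂ, ι t v = μ • v := fun t => hv (ι t) ⟨t, rfl⟩
  choose μ hμ using hex
  have huniq : ∀ (t : T) (c : ℂ), ι t v = c • v → μ t = c := by
    intro t c hc
    have h1 : (μ t - c) • v = 0 := by
      rw [sub_smul, ← hμ t, hc, sub_self]
    rcases smul_eq_zero.1 h1 with h2 | h2
    · exact sub_eq_zero.1 h2
    · exact absurd h2 hv0
  let lamC : T →+* ℂ :=
    { toFun := μ
      map_one' := huniq 1 1 (by rw [map_one, one_smul]; rfl)
      map_mul' := by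
        intro s t
        apply huniq
        rw [map_mul]
        show ι s (ι t v) = _
        rw [hμ t, map_smul, hμ s, smul_smul, mul_comm]
      map_zero' := huniq 0 0 (by rw [map_zero, zero_smul]; rfl)
      map_add' := by
        intro s t
        apply huniq
        rw [map_add]
        show ι s v + ι t v = _
        rw [hμ s, hμ t, add_smul] }
  have hlamC : ∀ t, lamC t = μ t := fun t => rfl
  have hlamInt : ∀ t, lamC t ∈ integralClosure ℤ ℂ := by
    intro t
    have h1 : IsIntegral ℤ t := Algebra.IsIntegral.isIntegral t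
    exact h1.map (lamC.toIntAlgHom)
  let lam : T →+* integralClosure ℤ ℂ := lamC.codRestrict (integralClosure ℤ ℂ).toSubring hlamInt
  have hlam : ∀ t, ((lam t : integralClosure ℤ ℂ) : ℂ) = μ t := fun t => rfl
  refine ⟨v, hv0, lam, fun t => by rw [hlam]; exact hμ t, ?_⟩
  -- the kernel of `lam` is `𝔭`
  have h𝔭ker : ∀ t ∈ 𝔭, lamC t = 0 := by
    intro t ht
    apply huniq
    rw [zero_smul]
    exact (hWmem v).1 hvW t ht
  let lamQ : T ⧸ 𝔭 →+* ℂ := Ideal.Quotient.lift 𝔭 lamC h𝔭ker
  have hIntQ : Algebra.IsIntegral ℤ (T ⧸ 𝔭) :=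
    Algebra.IsIntegral.of_surjective (Ideal.Quotient.mkₐ ℤ 𝔭) Ideal.Quotient.mk_surjective
  have hdom : IsDomain (T ⧸ 𝔭) := Ideal.Quotient.isDomain 𝔭
  have hkerQ : RingHom.ker lamQ = ⊥ := by
    apply Ideal.eq_bot_of_comap_eq_bot (R := ℤ)
    rw [eq_bot_iff]
    intro n hn
    rw [Ideal.mem_comap, RingHom.mem_ker] at hn
    have h1 : lamQ (algebraMap ℤ (T ⧸ 𝔭) n) = (n : ℂ) := by
      rw [eq_intCast, map_intCast]
    rw [h1] at hn
    have : n = 0 := by exact_mod_cast hn
    rw [this]; exact Ideal.zero_mem _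
  have hker : RingHom.ker lam ≤ 𝔪 := by
    intro t ht
    apply h𝔭le
    rw [RingHom.mem_ker] at ht
    have h1 : lamC t = 0 := by
      have := congrArg (fun z : integralClosure ℤ ℂ => (z : ℂ)) ht
      exact this
    have h2 : lamQ (Ideal.Quotient.mk 𝔭 t) = 0 := by
      rw [Ideal.Quotient.lift_mk]; exact h1
    have h3 : Ideal.Quotient.mk 𝔭 t ∈ RingHom.ker lamQ := h2
    rw [hkerQ, Ideal.mem_bot] at h3
    exact Ideal.Quotient.eq_zero_iff_mem.1 h3
  -- lying over
  let _ : Algebra T (integralClosure ℤ ℂ) := lam.toAlgebra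
  have htower : IsScalarTower ℤ T (integralClosure ℤ ℂ) :=
    IsScalarTower.of_algebraMap_eq (fun n => by
      rw [eq_intCast, eq_intCast, map_intCast])
  have hInt2 : Algebra.IsIntegral T (integralClosure ℤ ℂ) := Algebra.IsIntegral.tower_top ℤ
  obtain ⟨Q, hQmax, hQ⟩ := Ideal.exists_ideal_over_maximal_of_isIntegral
    (S := integralClosure ℤ ℂ) 𝔪 hker
  refine ⟨Q, hQmax, fun t ht => ?_⟩
  have : t ∈ Ideal.comap (algebraMap T (integralClosure ℤ ℂ)) Q := hQ ▸ ht
  exact this

end Fermat.Agent.S49
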