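import Fermat.Agent.S49.Basic

set_option autoImplicit false

namespace Fermat.Agent.S49

open ModularFormClass CongruenceSubgroup UpperHalfPlane

variable {N : ℕ}

theorem mem_intLattice_iff {k : ℤ} (f : CuspForm (Gamma0 N) k) :
    f ∈ CuspForm.intLattice N k ↔ ∀ n : ℕ, ∃ m : ℤ, qCoeff f n = (m : ℂ) :=
  P2MW.S_CuspForm_intLattice_fg.W3WsD.mem_intLattice_iff f

theorem mem_qIntegralSet_iff (f : CuspForm (Gamma0 N) 2) :
    f ∈ CuspForm.qIntegralSet N ↔ f ∈ CuspForm.intLattice N 2 := by
  rw [mem_intLattice_iff]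
  simp only [CuspForm.qIntegralSet, Set.mem_setOf_eq, Subring.mem_bot]
  constructor
  · intro h n; obtain ⟨m, hm⟩ := h n; exact ⟨m, hm.symm⟩
  · intro h n; obtain ⟨m, hm⟩ := h n; exact ⟨m, hm.symm⟩

theorem qIntegralSet_eq (N : ℕ) :
    CuspForm.qIntegralSet N = (CuspForm.intLattice N 2 : Set (CuspForm (Gamma0 N) 2)) := by
  ext f
  exact mem_qIntegralSet_iff f

/-- A finite set spanning the integral lattice over `ℤ` and the whole space over `ℂ`. -/
theorem exists_finset_span [NeZero N] (h : CuspForm.HasIntegralBasis N) :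
    ∃ s : Finset (CuspForm (Gamma0 N) 2),
      Submodule.span ℤ (s : Set (CuspForm (Gamma0 N) 2)) = CuspForm.intLattice N 2 ∧
      Submodule.span ℂ (s : Set (CuspForm (Gamma0 N) 2)) = ⊤ := by
  obtain ⟨s, hs⟩ := CuspForm.intLattice_fg N 2
  refine ⟨s, hs, ?_⟩
  have h1 : Submodule.span ℂ (CuspForm.qIntegralSet N) = ⊤ := h
  rw [qIntegralSet_eq, ← hs, Submodule.span_span_of_tower] at h1
  exact h1

theorem finiteDimensional_of_hasIntegralBasis [NeZero N] (h : CuspForm.HasIntegralBasis N) :
    FiniteDimensional ℂ (CuspForm (Gamma0 N) 2) := by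
  obtain ⟨s, -, hs⟩ := exists_finset_span h
  exact Module.finite_def.2 ⟨s, hs⟩

theorem heckeAlgebra_finite [NeZero N] (h : CuspForm.HasIntegralBasis N) (S : Set ℕ) :
    Module.Finite ℤ (CuspForm.heckeAlgebra N 2 S) := by
  classical
  obtain ⟨s, hsZ, hsC⟩ := exists_finset_span h
  have hmem : ∀ (t : CuspForm.heckeAlgebra N 2 S) (i : s),
      (t : Module.End ℂ (CuspForm (Gamma0 N) 2)) i.1 ∈ CuspForm.intLattice N 2 := by
    intro t i
    apply CuspForm.mem_intLattice_of_mem_heckeAlgebra (by norm_num) t.2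
    rw [← hsZ]
    exact Submodule.subset_span i.2
  let φ : CuspForm.heckeAlgebra N 2 S →ₗ[ℤ] (s → CuspForm.intLattice N 2) :=
    { toFun := fun t i => ⟨(t : Module.End ℂ (CuspForm (Gamma0 N) 2)) i.1, hmem t i⟩
      map_add' := by
        intro t t'
        funext i
        apply Subtype.ext
        simp
      map_smul' := by
        intro c t
        funext i
        apply Subtype.ext
        simp }
  have hφ : Function.Injective φ := by
    rw [injective_iff_map_eq_zero]
    intro t ht
    apply Subtype.ext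
    have h0 : ∀ i : s, (t : Module.End ℂ (CuspForm (Gamma0 N) 2)) i.1 = 0 := by
      intro i
      have := congrFun ht i
      exact congrArg Subtype.val this
    apply LinearMap.ext_on hsC
    intro x hx
    exact h0 ⟨x, hx⟩
  have : Module.Finite ℤ (CuspForm.intLattice N 2) :=
    Module.Finite.iff_fg.2 (CuspForm.intLattice_fg N 2)
  have : IsNoetherian ℤ (s → CuspForm.intLattice N 2) :=
    isNoetherian_of_isNoetherianRing_of_finite ℤ _
  exact Module.Finite.of_injective φ hφ

end Fermat.Agent.S49
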