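import Mathlib
import Fermat.Prelude.Def_FormalHecke_Eigensystem

set_option autoImplicit false

namespace Fermat.Agent.S49

open FormalHecke

variable {R : Type*} [CommRing R]

/-- An eigensystem is multiplicative on coprime arguments. -/
theorem IsEigensystem.mul_of_coprime {e a : ℕ → R} (h : IsEigensystem e a) :
    ∀ m n : ℕ, m.Coprime n → a (m * n) = a m * a n := by
  intro m
  induction m using Nat.strong_induction_on with
  | _ m ih =>
    intro n hmn
    rcases Nat.eq_zero_or_pos m with rfl | hmpos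
    · -- m = 0, so n = 1
      have hn : n = 1 := by simpa using hmn
      subst hn
      simp [h.1]
    rcases eq_or_ne m 1 with rfl | hm1
    · simp [h.1]
    -- m > 1: pick a prime factor
    obtain ⟨ℓ, hℓ, hℓm⟩ := Nat.exists_prime_and_dvd hm1
    obtain ⟨m', rfl⟩ := hℓm
    have hm'pos : 0 < m' := Nat.pos_of_mul_pos_left hmpos |> fun _ => by
      rcases Nat.eq_zero_or_pos m' with h0 | h0
      · subst h0; simp at hmpos
      · exact h0
    have hm'lt : m' < ℓ * m' := by
      have := hℓ.one_lt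
      nlinarith
    have hcop' : m'.Coprime n := Nat.Coprime.coprime_mul_left hmn
    have hℓn : ℓ.Coprime n := Nat.Coprime.coprime_mul_right hmn
    have hℓndvd : ¬ ℓ ∣ n := by
      intro hd
      have := Nat.Coprime.eq_one_of_dvd hℓn hd
      exact hℓ.one_lt.ne' this
    have e1 := h.2 ℓ hℓ (m' * n)
    have e2 := h.2 ℓ hℓ m'
    have ih1 := ih m' hm'lt n hcop'
    rw [mul_assoc]
    by_cases hd : ℓ ∣ m'
    · obtain ⟨m'', rfl⟩ := hd
      have hm''pos : 0 < m'' := by
        rcases Nat.eq_zero_or_pos m'' with h0 | h0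
        · subst h0; simp at hm'pos
        · exact h0
      have hm''lt : m'' < ℓ * (ℓ * m'') := by
        have := hℓ.one_lt
        nlinarith
      have hcop'' : m''.Coprime n := Nat.Coprime.coprime_mul_left hcop'
      have ih2 := ih m'' hm''lt n hcop''
      have hd1 : ℓ ∣ ℓ * m'' * n := Dvd.dvd.mul_right (dvd_mul_right ℓ m'') n
      have hdiv1 : ℓ * m'' * n / ℓ = m'' * n := by
        rw [mul_assoc, Nat.mul_div_cancel_left _ hℓ.pos]
      have hdiv2 : ℓ * m'' / ℓ = m'' := Nat.mul_div_cancel_left _ hℓ.pos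
      rw [if_pos hd1, hdiv1, ih2, ih1] at e1
      rw [if_pos (dvd_mul_right ℓ m''), hdiv2] at e2
      have : a (ℓ * (ℓ * m'' * n)) = a ℓ * (a (ℓ * m'') * a n) - e ℓ * (a m'' * a n) := by
        rw [← e1]; ring
      rw [this]
      have : a (ℓ * (ℓ * m'')) = a ℓ * a (ℓ * m'') - e ℓ * a m'' := by
        rw [← e2]; ring
      rw [this]; ring
    · have hd1 : ¬ ℓ ∣ m' * n := by
        intro hdd
        rcases (Nat.Prime.dvd_mul hℓ).1 hdd with h1 | h1
        · exact hd h1
        · exact hℓndvd h1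
      rw [if_neg hd1, ih1] at e1
      rw [if_neg hd] at e2
      simp only [mul_zero, add_zero] at e1 e2
      rw [e1, e2]; ring

theorem IsEigensystem.prime_pow {e a : ℕ → R} (h : IsEigensystem e a) (ℓ r : ℕ) (hℓ : ℓ.Prime) :
    a (ℓ ^ (r + 2)) = a ℓ * a (ℓ ^ (r + 1)) - e ℓ * a (ℓ ^ r) := by
  have e1 := h.2 ℓ hℓ (ℓ ^ (r + 1))
  have hd : ℓ ∣ ℓ ^ (r + 1) := dvd_pow_self ℓ (Nat.succ_ne_zero r)
  have hdiv : ℓ ^ (r + 1) / ℓ = ℓ ^ r := by
    rw [pow_succ, Nat.mul_div_cancel _ hℓ.pos]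
  rw [if_pos hd, hdiv] at e1
  have : ℓ ^ (r + 2) = ℓ * ℓ ^ (r + 1) := by ring
  rw [this, ← e1]; ring

theorem IsEigensystem.isRecursive {e a : ℕ → R} (h : IsEigensystem e a) : IsRecursive e a :=
  ⟨h.1, IsEigensystem.mul_of_coprime h, fun ℓ r hℓ => IsEigensystem.prime_pow h ℓ r hℓ⟩

end Fermat.Agent.S49
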