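import Fermat.Agent.S49.Basic
import Fermat.Agent.S49.Formal

set_option autoImplicit false

namespace Fermat.Agent.S49

open ModularFormClass CongruenceSubgroup UpperHalfPlane

variable {N : ℕ} [NeZero N]

/-- The formal character of weight two and level `N`. -/
noncomputable def weightTwoChar (N : ℕ) : ℕ → ℂ := fun ℓ => if ℓ ∣ N then 0 else (ℓ : ℂ)

/-- `q`-coefficients of a common eigenvector of all `T_ℓ` and `U_q`. -/
theorem qCoeff_eigen_rel {v : CuspForm (Gamma0 N) 2}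
    (hT : ∀ (ℓ : ℕ) (hℓ : ℓ.Prime) (hℓN : ¬ ℓ ∣ N), ∃ μ : ℂ, CuspForm.heckeTLin 2 hℓ hℓN v = μ • v)
    (hU : ∀ (q : ℕ) (_ : q.Prime) (hqN : q ∣ N), ∃ μ : ℂ, CuspForm.heckeULin 2 hqN v = μ • v)
    (ℓ : ℕ) (hℓ : ℓ.Prime) :
    ∃ μ : ℂ, ∀ n : ℕ, qCoeff ⇑v (ℓ * n) +
      weightTwoChar N ℓ * (if ℓ ∣ n then qCoeff ⇑v (n / ℓ) else 0) = μ * qCoeff ⇑v n := by
  by_cases hℓN : ℓ ∣ N
  · obtain ⟨μ, hμ⟩ := hU ℓ hℓ hℓN
    refine ⟨μ, fun n => ?_⟩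
    have h1 := qCoeff_heckeULin hℓ hℓN v n
    rw [hμ, qCoeff_smul] at h1
    simp only [weightTwoChar, if_pos hℓN, zero_mul, add_zero]
    rw [mul_comm ℓ n, ← h1]
  · obtain ⟨μ, hμ⟩ := hT ℓ hℓ hℓN
    refine ⟨μ, fun n => ?_⟩
    have h1 := qCoeff_heckeTLin hℓ hℓN v n
    rw [hμ, qCoeff_smul] at h1
    simp only [weightTwoChar, if_neg hℓN]
    rw [mul_comm ℓ n, h1]
    by_cases hd : ℓ ∣ n
    · simp only [if_pos hd]
    · simp only [if_neg hd, mul_zero]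

theorem qCoeff_one_ne_zero {v : CuspForm (Gamma0 N) 2} (hv : v ≠ 0)
    (hrel : ∀ (ℓ : ℕ) (_ : ℓ.Prime), ∃ μ : ℂ, ∀ n : ℕ, qCoeff ⇑v (ℓ * n) +
      weightTwoChar N ℓ * (if ℓ ∣ n then qCoeff ⇑v (n / ℓ) else 0) = μ * qCoeff ⇑v n) :
    qCoeff ⇑v 1 ≠ 0 := by
  intro h1
  apply hv
  apply eq_zero_of_qCoeff_eq_zero
  intro n
  induction n using Nat.strong_induction_on with
  | _ n ih =>
    rcases Nat.eq_zero_or_pos n with rfl | hpos
    · exact qCoeff_cusp_zero v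
    rcases eq_or_ne n 1 with rfl | hn1
    · exact h1
    obtain ⟨ℓ, hℓ, hℓn⟩ := Nat.exists_prime_and_dvd hn1
    obtain ⟨m, rfl⟩ := hℓn
    have hmpos : 0 < m := by
      rcases Nat.eq_zero_or_pos m with h0 | h0
      · subst h0; simp at hpos
      · exact h0
    have hmlt : m < ℓ * m := by
      have := hℓ.one_lt
      nlinarith
    obtain ⟨μ, hμ⟩ := hrel ℓ hℓ
    have e1 := hμ m
    rw [ih m hmlt, mul_zero] at e1
    by_cases hd : ℓ ∣ m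
    · have hlt2 : m / ℓ < ℓ * m := lt_of_le_of_lt (Nat.div_le_self m ℓ) hmlt
      rw [if_pos hd, ih (m / ℓ) hlt2, mul_zero, add_zero] at e1
      exact e1
    · rw [if_neg hd, mul_zero, add_zero] at e1
      exact e1

/-- A nonzero common eigenvector of all `T_ℓ` and `U_q` can be scaled to a normalized eigenform. -/
theorem exists_normalized_eigenform {v : CuspForm (Gamma0 N) 2} (hv : v ≠ 0)
    (hT : ∀ (ℓ : ℕ) (hℓ : ℓ.Prime) (hℓN : ¬ ℓ ∣ N), ∃ μ : ℂ, CuspForm.heckeTLin 2 hℓ hℓN v = μ • v)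
    (hU : ∀ (q : ℕ) (_ : q.Prime) (hqN : q ∣ N), ∃ μ : ℂ, CuspForm.heckeULin 2 hqN v = μ • v) :
    ∃ g : CuspForm (Gamma0 N) 2, g.IsNormalizedEigenform ∧
      ∀ (ℓ : ℕ) (hℓ : ℓ.Prime) (hℓN : ¬ ℓ ∣ N) (μ : ℂ),
        CuspForm.heckeTLin 2 hℓ hℓN v = μ • v → qCoeff ⇑g ℓ = μ := by
  have hrel := qCoeff_eigen_rel hT hU
  have hb1 := qCoeff_one_ne_zero hv hrel
  set b : ℕ → ℂ := fun n => qCoeff ⇑v n with hb
  set g : CuspForm (Gamma0 N) 2 := (b 1)⁻¹ • v with hg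
  have hc : ∀ n, qCoeff ⇑g n = (b 1)⁻¹ * b n := fun n => qCoeff_smul _ v n
  have hc1 : qCoeff ⇑g 1 = 1 := by
    rw [hc]; exact inv_mul_cancel₀ hb1
  -- the eigenvalue at a prime is the coefficient of `g`
  have hrel' : ∀ (ℓ : ℕ) (_ : ℓ.Prime), ∀ n : ℕ, qCoeff ⇑g (ℓ * n) +
      weightTwoChar N ℓ * (if ℓ ∣ n then qCoeff ⇑g (n / ℓ) else 0) =
        qCoeff ⇑g ℓ * qCoeff ⇑g n := by
    intro ℓ hℓ n
    obtain ⟨μ, hμ⟩ := hrel ℓ hℓ
    have hμ' : ∀ n : ℕ, qCoeff ⇑g (ℓ * n) +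
        weightTwoChar N ℓ * (if ℓ ∣ n then qCoeff ⇑g (n / ℓ) else 0) = μ * qCoeff ⇑g n := by
      intro n
      have e1 := hμ n
      rw [hc, hc, hc]
      have : (b 1)⁻¹ * b (ℓ * n) + weightTwoChar N ℓ * (if ℓ ∣ n then (b 1)⁻¹ * b (n / ℓ) else 0) =
          (b 1)⁻¹ * (b (ℓ * n) + weightTwoChar N ℓ * (if ℓ ∣ n then b (n / ℓ) else 0)) := by
        by_cases hd : ℓ ∣ n
        · simp only [if_pos hd]; ring
        · simp only [if_neg hd]; ring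
      rw [this]
      simp only [hb]
      rw [e1]; ring
    have hμℓ : qCoeff ⇑g ℓ = μ := by
      have e1 := hμ' 1
      have hd : ¬ ℓ ∣ 1 := fun h => hℓ.one_lt.ne' (Nat.dvd_one.1 h)
      rw [if_neg hd, mul_zero, add_zero, mul_one, hc1, mul_one] at e1
      exact e1
    rw [hμℓ]; exact hμ' n
  have heig : FormalHecke.IsEigensystem (weightTwoChar N) (fun n => qCoeff ⇑g n) :=
    ⟨hc1, fun ℓ hℓ n => hrel' ℓ hℓ n⟩
  refine ⟨g, ⟨hc1, ?_, ?_, ?_⟩, ?_⟩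
  · exact IsEigensystem.mul_of_coprime heig
  · intro p r hp hpN
    have := IsEigensystem.prime_pow heig p r hp
    simp only [weightTwoChar, if_neg hpN] at this
    exact this
  · intro p r hp hpN
    have := IsEigensystem.prime_pow heig p r hp
    simp only [weightTwoChar, if_pos hpN, zero_mul, sub_zero] at this
    exact this
  · intro ℓ hℓ hℓN μ hμ
    have h1 := qCoeff_heckeTLin hℓ hℓN v 1
    rw [hμ, qCoeff_smul] at h1
    have hd : ¬ ℓ ∣ 1 := fun h => hℓ.one_lt.ne' (Nat.dvd_one.1 h)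
    rw [if_neg hd, add_zero, one_mul] at h1
    rw [hc]
    simp only [hb]
    rw [← h1]
    field_simp

end Fermat.Agent.S49
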