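import Fermat.Agent.S49.Finite

set_option autoImplicit false

namespace Fermat.Agent.S49

open ModularFormClass CongruenceSubgroup UpperHalfPlane EisensteinWeightOne

variable {N : ℕ}

/-- All `q`-coefficients are three times an integer. -/
def Div3 (F : CuspForm (Gamma0 N) 2) : Prop :=
  ∀ n : ℕ, ∃ m : ℤ, qCoeff ⇑F n = 3 * (m : ℂ)

theorem div3_iff (F : CuspForm (Gamma0 N) 2) :
    Div3 F ↔ ∃ g ∈ CuspForm.intLattice N 2, F = (3 : ℤ) • g := by
  constructor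
  · intro h
    refine ⟨((1 / 3 : ℂ)) • F, ?_, ?_⟩
    · rw [mem_intLattice_iff]
      intro n
      obtain ⟨m, hm⟩ := h n
      refine ⟨m, ?_⟩
      rw [qCoeff_smul, hm]
      ring
    · ext z
      simp
  · rintro ⟨g, hg, rfl⟩ n
    rw [mem_intLattice_iff] at hg
    obtain ⟨m, hm⟩ := hg n
    refine ⟨m, ?_⟩
    rw [qCoeff_zsmul, hm]
    norm_num

theorem div3_add {F G : CuspForm (Gamma0 N) 2} (hF : Div3 F) (hG : Div3 G) : Div3 (F + G) := by
  intro n
  obtain ⟨a, ha⟩ := hF n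
  obtain ⟨b, hb⟩ := hG n
  exact ⟨a + b, by rw [qCoeff_add, ha, hb]; push_cast; ring⟩

theorem div3_zero : Div3 (0 : CuspForm (Gamma0 N) 2) := by
  intro n
  refine ⟨0, ?_⟩
  have : (0 : CuspForm (Gamma0 N) 2) = (0 : ℂ) • (0 : CuspForm (Gamma0 N) 2) := by simp
  rw [this, qCoeff_smul]
  simp

theorem chiNegThree_modEq (ℓ : ℕ) : (3 : ℤ) ∣ (ℓ : ℤ) - chiNegThree ℓ := by
  unfold chiNegThree
  have h3 : ℓ % 3 < 3 := Nat.mod_lt _ (by norm_num)
  have hℓ : (ℓ : ℤ) = 3 * ((ℓ / 3 : ℕ) : ℤ) + ((ℓ % 3 : ℕ) : ℤ) := by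
    exact_mod_cast (Nat.div_add_mod ℓ 3).symm
  interval_cases hr : ℓ % 3
  · simp only [zero_ne_one, if_false]
    norm_num
    rw [hℓ]; simp
  · simp only [if_true]
    rw [hℓ]; exact ⟨((ℓ / 3 : ℕ) : ℤ), by push_cast; ring⟩
  · norm_num
    rw [hℓ]; exact ⟨((ℓ / 3 : ℕ) : ℤ) + 1, by push_cast; ring⟩

section

variable [NeZero N]

/-- The ideal of Hecke operators sending `f` into three times the integral lattice. -/
def eigenIdeal (f : CuspForm (Gamma0 N) 2) : Ideal (CuspForm.heckeAlgebra N 2 ∅) where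
  carrier := {t | Div3 ((t : Module.End ℂ (CuspForm (Gamma0 N) 2)) f)}
  add_mem' := by
    intro s t hs ht
    show Div3 (((s + t : CuspForm.heckeAlgebra N 2 ∅) : Module.End ℂ (CuspForm (Gamma0 N) 2)) f)
    have : ((s + t : CuspForm.heckeAlgebra N 2 ∅) : Module.End ℂ (CuspForm (Gamma0 N) 2)) f =
        (s : Module.End ℂ (CuspForm (Gamma0 N) 2)) f +
          (t : Module.End ℂ (CuspForm (Gamma0 N) 2)) f := rfl
    rw [this]
    exact div3_add hs ht
  zero_mem' := by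
    show Div3 (((0 : CuspForm.heckeAlgebra N 2 ∅) : Module.End ℂ (CuspForm (Gamma0 N) 2)) f)
    have : ((0 : CuspForm.heckeAlgebra N 2 ∅) : Module.End ℂ (CuspForm (Gamma0 N) 2)) f = 0 := rfl
    rw [this]
    exact div3_zero
  smul_mem' := by
    intro s t ht
    show Div3 (((s * t : CuspForm.heckeAlgebra N 2 ∅) : Module.End ℂ (CuspForm (Gamma0 N) 2)) f)
    have h1 : ((s * t : CuspForm.heckeAlgebra N 2 ∅) : Module.End ℂ (CuspForm (Gamma0 N) 2)) f =
        (s : Module.End ℂ (CuspForm (Gamma0 N) 2))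
          ((t : Module.End ℂ (CuspForm (Gamma0 N) 2)) f) := rfl
    rw [h1]
    obtain ⟨g, hg, hgeq⟩ := (div3_iff _).1 ht
    rw [hgeq, div3_iff]
    refine ⟨(s : Module.End ℂ (CuspForm (Gamma0 N) 2)) g,
      CuspForm.mem_intLattice_of_mem_heckeAlgebra (by norm_num) s.2 hg, ?_⟩
    exact map_zsmul (s : Module.End ℂ (CuspForm (Gamma0 N) 2)) 3 g

theorem mem_eigenIdeal (f : CuspForm (Gamma0 N) 2) (t : CuspForm.heckeAlgebra N 2 ∅) :
    t ∈ eigenIdeal f ↔ Div3 ((t : Module.End ℂ (CuspForm (Gamma0 N) 2)) f) := Iff.rfl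

end

end Fermat.Agent.S49
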