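import Fermat.Agent.S49.Ideal
import Fermat.Prelude.Def_FormalHecke_Eigensystem

set_option autoImplicit false

namespace Fermat.Agent.S49

open ModularFormClass CongruenceSubgroup UpperHalfPlane EisensteinWeightOne

variable {N : ℕ}

/-- The Eisenstein series is congruent to `1` modulo `3`. -/
theorem bridgeProduct_coeff (a : ℕ → ℤ) (n : ℕ) :
    (3 : ℤ) ∣ (bridgeProduct a).coeff n - a n := by
  let E' : PowerSeries ℤ := PowerSeries.mk fun n => if n = 0 then 0 else 2 * sigmaChi n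
  have hE : e1Chi3In ℤ = 1 + PowerSeries.C (3 : ℤ) * E' := by
    ext m
    simp only [e1Chi3In, e1Chi3, PowerSeries.coeff_map, PowerSeries.coeff_mk, map_add,
      PowerSeries.coeff_one, PowerSeries.coeff_C_mul, E']
    by_cases hm : m = 0
    · simp [hm]
    · simp [hm]; ring
  have : bridgeProduct a = PowerSeries.mk a + PowerSeries.C (3 : ℤ) * (PowerSeries.mk a * E') := by
    rw [bridgeProduct, hE]; ring
  rw [this, map_add, PowerSeries.coeff_mk, PowerSeries.coeff_C_mul]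
  exact ⟨PowerSeries.coeff n (PowerSeries.mk a * E'), by ring⟩

/-- The data extracted from the hypotheses of the lifting lemma. -/
structure Setup (N : ℕ) (a : ℕ → ℤ) (f : CuspForm (Gamma0 N) 2) (af : ℕ → ℤ) : Prop where
  heig : FormalHecke.IsEigensystem (fun ℓ => if ℓ ∣ N then 0 else ((chiNegThree ℓ : ℤ) : ℤ)) a
  haf : ∀ n, (af n : ℂ) = qCoeff ⇑f n
  hcong : ∀ n, (3 : ℤ) ∣ af n - a n

theorem exists_setup {a : ℕ → ℤ}
    (heig : FormalHecke.IsEigensystem
      (fun ℓ => if ℓ ∣ N then 0 else ((chiNegThree ℓ : ℤ) : ℤ)) a)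
    (hreal : CuspForm.IsLatticeRealized N a) :
    ∃ (f : CuspForm (Gamma0 N) 2) (af : ℕ → ℤ), Setup N a f af := by
  obtain ⟨f, -, af, haf, hc⟩ := hreal
  refine ⟨f, af, heig, haf, fun n => ?_⟩
  have h1 := hc n
  have h2 := bridgeProduct_coeff a n
  have : af n - a n = (af n - (bridgeProduct a).coeff n) + ((bridgeProduct a).coeff n - a n) := by
    ring
  rw [this]
  exact dvd_add h1 h2

namespace Setup

variable {a : ℕ → ℤ} {f : CuspForm (Gamma0 N) 2} {af : ℕ → ℤ}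

theorem mem_lattice (S : Setup N a f af) : f ∈ CuspForm.intLattice N 2 := by
  rw [mem_intLattice_iff]
  intro n
  exact ⟨af n, (S.haf n).symm⟩

theorem cast_eq (S : Setup N a f af) (n : ℕ) : ((af n : ℤ) : ZMod 3) = ((a n : ℤ) : ZMod 3) := by
  have := S.hcong n
  rw [← sub_eq_zero, ← Int.cast_sub]
  exact (ZMod.intCast_zmod_eq_zero_iff_dvd _ 3).2 (by exact_mod_cast this)

theorem af_one (S : Setup N a f af) : ((af 1 : ℤ) : ZMod 3) = 1 := by
  rw [S.cast_eq, S.heig.1]; simp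

theorem chi_cast (ℓ : ℕ) : ((chiNegThree ℓ : ℤ) : ZMod 3) = (ℓ : ZMod 3) := by
  have := chiNegThree_modEq ℓ
  have h2 : (((ℓ : ℤ) - chiNegThree ℓ : ℤ) : ZMod 3) = 0 :=
    (ZMod.intCast_zmod_eq_zero_iff_dvd _ 3).2 (by exact_mod_cast this)
  rw [Int.cast_sub, sub_eq_zero] at h2
  rw [← h2]; simp

/-- `T_ℓ f ≡ a_ℓ f` modulo three times the lattice. -/
theorem div3_T (S : Setup N a f af) {ℓ : ℕ} (hℓ : ℓ.Prime) (hℓN : ¬ ℓ ∣ N) :
    Div3 (CuspForm.heckeTLin 2 hℓ hℓN f + (-(a ℓ) : ℤ) • f) := by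
  intro n
  have key : (3 : ℤ) ∣ af (n * ℓ) + (if ℓ ∣ n then (ℓ : ℤ) * af (n / ℓ) else 0) - a ℓ * af n := by
    suffices hz : ((af (n * ℓ) + (if ℓ ∣ n then (ℓ : ℤ) * af (n / ℓ) else 0) - a ℓ * af n : ℤ) :
        ZMod 3) = 0 by
      exact_mod_cast (ZMod.intCast_zmod_eq_zero_iff_dvd _ 3).1 hz
    have e1 := S.heig.2 ℓ hℓ n
    simp only [if_neg hℓN] at e1
    have e2 := congrArg (fun z : ℤ => (z : ZMod 3)) e1
    beta_reduce at e2
    rw [mul_comm ℓ n] at e2
    by_cases hd : ℓ ∣ n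
    · simp only [if_pos hd] at e2 ⊢
      push_cast at e2 ⊢
      rw [S.cast_eq, S.cast_eq, S.cast_eq, ← e2, chi_cast]
      ring
    · simp only [if_neg hd] at e2 ⊢
      push_cast at e2 ⊢
      rw [S.cast_eq, S.cast_eq, ← e2]
      ring
  obtain ⟨m, hm⟩ := key
  refine ⟨m, ?_⟩
  rw [qCoeff_add, qCoeff_zsmul, qCoeff_heckeTLin]
  simp only [← S.haf]
  have : ((3 : ℂ) * (m : ℂ)) = ((3 * m : ℤ) : ℂ) := by push_cast; ring
  rw [this, ← hm]
  by_cases hd : ℓ ∣ n
  · simp only [if_pos hd]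
    push_cast; ring
  · simp only [if_neg hd]
    push_cast; ring

/-- `U_q f ≡ a_q f` modulo three times the lattice. -/
theorem div3_U [NeZero N] (S : Setup N a f af) {q : ℕ} (hq : q.Prime) (hqN : q ∣ N) :
    Div3 (CuspForm.heckeULin 2 hqN f + (-(a q) : ℤ) • f) := by
  intro n
  have key : (3 : ℤ) ∣ af (n * q) - a q * af n := by
    suffices hz : ((af (n * q) - a q * af n : ℤ) : ZMod 3) = 0 by
      exact_mod_cast (ZMod.intCast_zmod_eq_zero_iff_dvd _ 3).1 hz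
    have e1 := S.heig.2 q hq n
    simp only [if_pos hqN, zero_mul, add_zero] at e1
    have e2 := congrArg (fun z : ℤ => (z : ZMod 3)) e1
    beta_reduce at e2
    rw [mul_comm q n] at e2
    push_cast at e2 ⊢
    rw [S.cast_eq, S.cast_eq, e2]
    ring
  obtain ⟨m, hm⟩ := key
  refine ⟨m, ?_⟩
  rw [qCoeff_add, qCoeff_zsmul, qCoeff_heckeULin hq]
  simp only [← S.haf]
  have : ((3 : ℂ) * (m : ℂ)) = ((3 * m : ℤ) : ℂ) := by push_cast; ring
  rw [this, ← hm]
  push_cast; ring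

end Setup

end Fermat.Agent.S49
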