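import Fermat.Agent.S49.Maximal

set_option autoImplicit false

namespace Fermat.Agent.S49

open ModularFormClass CongruenceSubgroup UpperHalfPlane EisensteinWeightOne

variable {N : ℕ} [NeZero N]

namespace Setup

variable {a : ℕ → ℤ} {f : CuspForm (Gamma0 N) 2} {af : ℕ → ℤ}

/-- Every Hecke operator acts on `f` as an integer modulo three times the lattice. -/
theorem exists_int_cong (S : Setup N a f af) {x : Module.End ℂ (CuspForm (Gamma0 N) 2)}
    (hx : x ∈ CuspForm.heckeAlgebra N 2 ∅) :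
    ∃ c : ℤ, ∃ g ∈ CuspForm.intLattice N 2, x f = c • f + (3 : ℤ) • g := by
  refine Algebra.adjoin_induction
    (p := fun x _ => ∃ c : ℤ, ∃ g ∈ CuspForm.intLattice N 2, x f = c • f + (3 : ℤ) • g)
    ?_ ?_ ?_ ?_ hx
  · rintro x (⟨ℓ, hℓ, hℓN, -, rfl⟩ | ⟨q, hqN, hq, -, rfl⟩)
    · obtain ⟨g, hg, hgeq⟩ := (div3_iff _).1 (S.div3_T hℓ hℓN)
      refine ⟨a ℓ, g, hg, ?_⟩
      rw [← hgeq]
      simp
    · obtain ⟨g, hg, hgeq⟩ := (div3_iff _).1 (S.div3_U hq hqN)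
      refine ⟨a q, g, hg, ?_⟩
      rw [← hgeq]
      simp
  · intro r
    refine ⟨r, 0, Submodule.zero_mem _, ?_⟩
    rw [Algebra.algebraMap_eq_smul_one, LinearMap.smul_apply, Module.End.one_apply]
    simp
  · rintro x y _ _ ⟨c, g, hg, hx⟩ ⟨c', g', hg', hy⟩
    refine ⟨c + c', g + g', Submodule.add_mem _ hg hg', ?_⟩
    rw [LinearMap.add_apply, hx, hy]
    module
  · rintro x y hxm _ ⟨c, g, hg, hx⟩ ⟨c', g', hg', hy⟩
    refine ⟨c * c', c' • g + x g', Submodule.add_mem _ (Submodule.smul_mem _ _ hg)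
      (CuspForm.mem_intLattice_of_mem_heckeAlgebra (by norm_num) hxm hg'), ?_⟩
    rw [Module.End.mul_apply, hy, map_add, map_zsmul, map_zsmul, hx]
    module

theorem one_notMem (S : Setup N a f af) : (1 : CuspForm.heckeAlgebra N 2 ∅) ∉ eigenIdeal f := by
  intro h1
  rw [mem_eigenIdeal] at h1
  have h2 : ((1 : CuspForm.heckeAlgebra N 2 ∅) : Module.End ℂ (CuspForm (Gamma0 N) 2)) f = f := rfl
  rw [h2] at h1
  obtain ⟨m, hm⟩ := h1 1
  rw [← S.haf] at hm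
  have h3 : af 1 = 3 * m := by exact_mod_cast hm
  have h4 := S.af_one
  rw [h3] at h4
  push_cast at h4
  have h5 : (3 : ZMod 3) = 0 := by decide
  rw [h5, zero_mul] at h4
  exact zero_ne_one h4

theorem intCast_mem_iff (S : Setup N a f af) (c : ℤ) :
    ((c : ℤ) : CuspForm.heckeAlgebra N 2 ∅) ∈ eigenIdeal f ↔ (3 : ℤ) ∣ c := by
  rw [mem_eigenIdeal]
  have h2 : (((c : ℤ) : CuspForm.heckeAlgebra N 2 ∅) :
      Module.End ℂ (CuspForm (Gamma0 N) 2)) f = c • f := by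
    show ((c : ℤ) : Module.End ℂ (CuspForm (Gamma0 N) 2)) f = c • f
    rw [Module.End.intCast_apply]
  rw [h2]
  constructor
  · intro h
    obtain ⟨m, hm⟩ := h 1
    rw [qCoeff_zsmul, ← S.haf] at hm
    have h3 : c * af 1 = 3 * m := by exact_mod_cast hm
    have h4 := S.af_one
    have h5 : ((c * af 1 : ℤ) : ZMod 3) = 0 := by
      rw [h3]; push_cast
      have : (3 : ZMod 3) = 0 := by decide
      rw [this, zero_mul]
    rw [Int.cast_mul, h4, mul_one] at h5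
    exact_mod_cast (ZMod.intCast_zmod_eq_zero_iff_dvd _ 3).1 h5
  · rintro ⟨d, rfl⟩ n
    refine ⟨d * af n, ?_⟩
    rw [qCoeff_zsmul, ← S.haf]
    push_cast; ring

theorem sub_intCast_mem (S : Setup N a f af) (t : CuspForm.heckeAlgebra N 2 ∅) :
    ∃ c : ℤ, t - (c : CuspForm.heckeAlgebra N 2 ∅) ∈ eigenIdeal f := by
  obtain ⟨c, g, hg, hc⟩ := S.exists_int_cong t.2
  refine ⟨c, ?_⟩
  rw [mem_eigenIdeal, div3_iff]
  refine ⟨g, hg, ?_⟩
  have h2 : ((t - (c : CuspForm.heckeAlgebra N 2 ∅) : CuspForm.heckeAlgebra N 2 ∅) :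
      Module.End ℂ (CuspForm (Gamma0 N) 2)) f =
      (t : Module.End ℂ (CuspForm (Gamma0 N) 2)) f - c • f := by
    show ((t : Module.End ℂ (CuspForm (Gamma0 N) 2)) -
      ((c : ℤ) : Module.End ℂ (CuspForm (Gamma0 N) 2))) f = _
    rw [LinearMap.sub_apply, Module.End.intCast_apply]
  rw [h2, hc]
  module

theorem eigenIdeal_isMaximal (S : Setup N a f af) : (eigenIdeal f).IsMaximal := by
  rw [Ideal.isMaximal_iff]
  refine ⟨S.one_notMem, ?_⟩
  intro J x hIJ hxI hxJ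
  obtain ⟨c, hc⟩ := S.sub_intCast_mem x
  have hcJ : ((c : ℤ) : CuspForm.heckeAlgebra N 2 ∅) ∈ J := by
    have := J.sub_mem hxJ (hIJ hc)
    simpa using this
  have hc3 : ¬ (3 : ℤ) ∣ c := by
    intro h3
    apply hxI
    have := (eigenIdeal f).add_mem hc ((S.intCast_mem_iff c).2 h3)
    simpa using this
  have hcop : IsCoprime c 3 := by
    have hp : Prime (3 : ℤ) := Int.prime_three
    exact (hp.coprime_iff_not_dvd.2 hc3).symm
  obtain ⟨u, v, huv⟩ := hcop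
  have h3J : ((3 : ℤ) : CuspForm.heckeAlgebra N 2 ∅) ∈ J :=
    hIJ ((S.intCast_mem_iff 3).2 dvd_rfl)
  have : (1 : CuspForm.heckeAlgebra N 2 ∅) =
      ((u : ℤ) : CuspForm.heckeAlgebra N 2 ∅) * ((c : ℤ) : CuspForm.heckeAlgebra N 2 ∅) +
        ((v : ℤ) : CuspForm.heckeAlgebra N 2 ∅) * ((3 : ℤ) : CuspForm.heckeAlgebra N 2 ∅) := by
    rw [← Int.cast_mul, ← Int.cast_mul, ← Int.cast_add, huv, Int.cast_one]
  rw [this]
  exact J.add_mem (J.mul_mem_left _ hcJ) (J.mul_mem_left _ h3J)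

theorem three_mem (S : Setup N a f af) : ((3 : ℕ) : CuspForm.heckeAlgebra N 2 ∅) ∈ eigenIdeal f := by
  have := (S.intCast_mem_iff 3).2 dvd_rfl
  exact_mod_cast this

theorem T_sub_mem (S : Setup N a f af) {ℓ : ℕ} (hℓ : ℓ.Prime) (hℓN : ¬ ℓ ∣ N) :
    (CuspForm.heckeAlgebra.T hℓ hℓN (Set.notMem_empty _) : CuspForm.heckeAlgebra N 2 ∅) -
      ((a ℓ : ℤ) : CuspForm.heckeAlgebra N 2 ∅) ∈ eigenIdeal f := by
  rw [mem_eigenIdeal]
  have h2 : (((CuspForm.heckeAlgebra.T hℓ hℓN (Set.notMem_empty _) :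
      CuspForm.heckeAlgebra N 2 ∅) - ((a ℓ : ℤ) : CuspForm.heckeAlgebra N 2 ∅) :
      CuspForm.heckeAlgebra N 2 ∅) : Module.End ℂ (CuspForm (Gamma0 N) 2)) f =
      CuspForm.heckeTLin 2 hℓ hℓN f + (-(a ℓ) : ℤ) • f := by
    show ((CuspForm.heckeTLin 2 hℓ hℓN : Module.End ℂ (CuspForm (Gamma0 N) 2)) -
      ((a ℓ : ℤ) : Module.End ℂ (CuspForm (Gamma0 N) 2))) f = _
    rw [LinearMap.sub_apply, Module.End.intCast_apply]
    module
  rw [h2]
  exact S.div3_T hℓ hℓN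

end Setup

end Fermat.Agent.S49
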